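import Mathlib
import Fermat.Prelude.Def_ExtCitation_AdmissibleExtension_v2

set_option autoImplicit false
set_option linter.style.haveILetI false

open ExtCitation

namespace Fermat.Agent.CFT.S14

/-- The absolute Galois group of `ℚ`. -/
abbrev GQ : Type := AlgebraicClosure ℚ ≃ₐ[ℚ] AlgebraicClosure ℚ

variable (p : ℕ) [Fact p.Prime]

/-- The mod `p` cyclotomic character of `G_ℚ`. -/
noncomputable def chi : GQ →* (ZMod p)ˣ :=
  haveI : NeZero p := ⟨(Fact.out : p.Prime).ne_zero⟩
  (modularCyclotomicCharacter (AlgebraicClosure ℚ) (card_rootsOfUnity_eq_self p)).comp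
    (MulSemiringAction.toRingAut GQ (AlgebraicClosure ℚ))

theorem cycloExp_cast (σ : GQ) : ((cycloExp p σ : ℕ) : ZMod p) = (chi p σ : ZMod p) := by
  haveI : NeZero p := ⟨(Fact.out : p.Prime).ne_zero⟩
  unfold cycloExp chi
  rw [ZMod.natCast_zmod_val]
  rfl

theorem chi_spec (σ : GQ) {t : (AlgebraicClosure ℚ)ˣ}
    (ht : t ∈ rootsOfUnity p (AlgebraicClosure ℚ)) :
    σ (t : AlgebraicClosure ℚ) = (t : AlgebraicClosure ℚ) ^ ((chi p σ : ZMod p)).val := by
  haveI : NeZero p := ⟨(Fact.out : p.Prime).ne_zero⟩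
  exact modularCyclotomicCharacter.spec (AlgebraicClosure ℚ) (card_rootsOfUnity_eq_self p)
    (MulSemiringAction.toRingAut GQ (AlgebraicClosure ℚ) σ) ht

section Ext

variable {p}
variable {V : Type} [AddCommGroup V] [Module (ZMod p) V] [DistribMulAction GQ V]
  [SMulCommClass GQ (ZMod p) V] {C : Submodule (ZMod p) V}

/-- The kernel of the action of `G_ℚ` on `V`. -/
def actKer (V : Type) [AddCommGroup V] [DistribMulAction GQ V] : Subgroup GQ where
  carrier := {σ | ∀ v : V, σ • v = v}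
  one_mem' v := one_smul _ v
  mul_mem' {a b} ha hb v := by rw [mul_smul, hb v, ha v]
  inv_mem' {a} ha v := by
    have := ha v
    calc a⁻¹ • v = a⁻¹ • (a • v) := by rw [this]
      _ = v := inv_smul_smul a v

theorem mem_actKer {σ : GQ} : σ ∈ actKer V ↔ ∀ v : V, σ • v = v := Iff.rfl

instance actKer_normal : (actKer V).Normal where
  conj_mem n hn g v := by
    rw [mul_smul, mul_smul, hn (g⁻¹ • v), smul_inv_smul]

variable (hadm : IsAdmissibleExtension p V C)
include hadm

theorem smul_sub_chi_smul_mem (σ : GQ) (x : V) : σ • x - (chi p σ : ZMod p) • x ∈ C := by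
  have := hadm.cyclo_quot σ x
  rwa [cycloExp_cast] at this

theorem exists_not_mem : ∃ v₀ : V, v₀ ∉ C := by
  by_contra h
  push Not at h
  have htop : C = ⊤ := eq_top_iff.mpr fun v _ => h v
  have h1 := hadm.card_sub
  have h2 := hadm.card_total
  rw [htop] at h1
  have h3 : Nat.card (⊤ : Submodule (ZMod p) V) = Nat.card V :=
    Nat.card_congr (Submodule.topEquiv (R := ZMod p) (M := V)).toEquiv
  rw [h3, h2] at h1
  have hp := (Fact.out : p.Prime).one_lt
  nlinarith

/-- Every vector is `c + a • v₀` for `v₀ ∉ C`. -/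
theorem exists_eq_add_smul {v₀ : V} (hv₀ : v₀ ∉ C) (v : V) :
    ∃ c ∈ C, ∃ a : ZMod p, v = c + a • v₀ := by
  haveI : NeZero p := ⟨(Fact.out : p.Prime).ne_zero⟩
  haveI : Finite V := Nat.finite_of_card_ne_zero (by rw [hadm.card_total]; exact pow_ne_zero _ (NeZero.ne p))
  have hcard : Nat.card (V ⧸ C) = p := by
    have h := Submodule.card_eq_card_quotient_mul_card C
    rw [hadm.card_total, hadm.card_sub] at h
    have hp := (Fact.out : p.Prime).pos
    nlinarith
  have hinj : Function.Injective (fun a : ZMod p => a • (Submodule.Quotient.mk v₀ : V ⧸ C)) := by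
    intro a b hab
    by_contra hne
    have h1 : (a - b) • (Submodule.Quotient.mk v₀ : V ⧸ C) = 0 := by
      rw [sub_smul]; exact sub_eq_zero.mpr hab
    have h2 : (Submodule.Quotient.mk v₀ : V ⧸ C) = 0 := by
      have := congrArg (fun x => (a - b)⁻¹ • x) h1
      simpa [smul_smul, inv_mul_cancel₀ (sub_ne_zero.mpr hne)] using this
    exact hv₀ ((Submodule.Quotient.mk_eq_zero C).mp h2)
  haveI : Finite (V ⧸ C) := Nat.finite_of_card_ne_zero (by rw [hcard]; exact NeZero.ne p)
  have hsurj : Function.Surjective (fun a : ZMod p => a • (Submodule.Quotient.mk v₀ : V ⧸ C)) := by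
    refine (hinj.bijective_of_nat_card_le ?_).2
    rw [hcard, Nat.card_zmod]
  obtain ⟨a, ha⟩ := hsurj (Submodule.Quotient.mk v)
  refine ⟨v - a • v₀, ?_, a, by abel⟩
  rw [← Submodule.Quotient.mk_eq_zero C, Submodule.Quotient.mk_sub, Submodule.Quotient.mk_smul]
  exact sub_eq_zero.mpr ha.symm

theorem smul_sub_mem_of_chi_eq_one {σ : GQ} (hσ : chi p σ = 1) (x : V) : σ • x - x ∈ C := by
  have := smul_sub_chi_smul_mem hadm σ x
  rwa [hσ, Units.val_one, one_smul] at this

theorem chi_eq_one_of_mem_actKer {σ : GQ} (hσ : σ ∈ actKer V) : chi p σ = 1 := by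
  obtain ⟨v₀, hv₀⟩ := exists_not_mem hadm
  have h := smul_sub_chi_smul_mem hadm σ v₀
  rw [hσ v₀] at h
  by_contra hne
  have hne' : (1 : ZMod p) - (chi p σ : ZMod p) ≠ 0 := by
    intro h0
    apply hne
    ext
    rw [Units.val_one]
    exact (sub_eq_zero.mp h0).symm
  have h2 : (1 - (chi p σ : ZMod p)) • v₀ ∈ C := by
    rwa [sub_smul, one_smul]
  have h3 := C.smul_mem (1 - (chi p σ : ZMod p))⁻¹ h2
  rw [smul_smul, inv_mul_cancel₀ hne', one_smul] at h3
  exact hv₀ h3

theorem actKer_le_ker : actKer V ≤ (chi p).ker := fun _ hσ =>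
  MonoidHom.mem_ker.mpr (chi_eq_one_of_mem_actKer hadm hσ)

theorem mem_actKer_of_smul_eq {σ : GQ} {v₀ : V} (hv₀ : v₀ ∉ C)
    (h : σ • v₀ = v₀) : σ ∈ actKer V := by
  intro v
  obtain ⟨c, hc, a, rfl⟩ := exists_eq_add_smul hadm hv₀ v
  rw [smul_add, hadm.fixed_sub σ c hc, smul_comm, h]

theorem mul_smul_sub {σ τ : GQ} (hτ : chi p τ = 1) (v₀ : V) :
    (σ * τ) • v₀ - v₀ = (σ • v₀ - v₀) + (τ • v₀ - v₀) := by
  have h1 := smul_sub_mem_of_chi_eq_one hadm hτ v₀
  have h2 := hadm.fixed_sub σ _ h1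
  rw [smul_sub] at h2
  rw [mul_smul]
  have : σ • τ • v₀ = τ • v₀ - v₀ + σ • v₀ := by rw [← h2]; abel
  rw [this]; abel

theorem conj_smul_sub (τ : GQ) {σ : GQ} (hσ : chi p σ = 1) (v₀ : V) :
    (τ * σ * τ⁻¹) • v₀ - v₀ = (((chi p τ)⁻¹ : (ZMod p)ˣ) : ZMod p) • (σ • v₀ - v₀) := by
  set a : ZMod p := (((chi p τ)⁻¹ : (ZMod p)ˣ) : ZMod p) with ha
  set c : V := τ⁻¹ • v₀ - a • v₀ with hc
  set d : V := σ • v₀ - v₀ with hd
  have hcC : c ∈ C := by
    have := smul_sub_chi_smul_mem hadm τ⁻¹ v₀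
    rwa [map_inv] at this
  have hdC : d ∈ C := smul_sub_mem_of_chi_eq_one hadm hσ v₀
  have h1 : τ⁻¹ • v₀ = a • v₀ + c := by rw [hc]; abel
  have h2 : σ • v₀ = v₀ + d := by rw [hd]; abel
  have h3 : σ • τ⁻¹ • v₀ = τ⁻¹ • v₀ + a • d := by
    rw [h1, smul_add, hadm.fixed_sub σ c hcC, smul_comm, h2, smul_add]; abel
  have h4 : τ • (a • d) = a • d := hadm.fixed_sub τ _ (C.smul_mem a hdC)
  rw [mul_smul, mul_smul, h3, smul_add, smul_inv_smul, h4]; abel

/-- **The split case**: if `ker χ` acts trivially on `V`, then `C` has a `G_ℚ`-stable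
complement. -/
theorem splitsGlobally_of_ker_le (htriv : (chi p).ker ≤ actKer V)
    (hσ₀ : ∃ σ₀ : GQ, chi p σ₀ ≠ 1) : SplitsGlobally C := by
  obtain ⟨σ₀, hσ₀⟩ := hσ₀
  set a : ZMod p := (chi p σ₀ : ZMod p) with ha
  have hne : (1 : ZMod p) - a ≠ 0 := by
    intro h0
    apply hσ₀
    ext
    rw [Units.val_one]
    exact (sub_eq_zero.mp h0).symm
  -- `σ₀` commutes with everybody on `V`
  have hcomm : ∀ (τ : GQ) (x : V), σ₀ • τ • x = τ • σ₀ • x := by
    intro τ x
    have hk : σ₀ * τ * σ₀⁻¹ * τ⁻¹ ∈ (chi p).ker := by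
      rw [MonoidHom.mem_ker]
      simp only [map_mul, map_inv]
      rw [mul_comm (chi p σ₀) (chi p τ)]
      group
    have := htriv hk (τ • σ₀ • x)
    rw [mul_smul, mul_smul, mul_smul, inv_smul_smul, inv_smul_smul] at this
    exact this
  let C' : Submodule (ZMod p) V :=
    { carrier := {x | σ₀ • x = a • x}
      add_mem' := fun {x y} hx hy => by
        show σ₀ • (x + y) = a • (x + y)
        rw [smul_add, smul_add, hx, hy]
      zero_mem' := by
        show σ₀ • (0 : V) = a • (0 : V)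
        rw [smul_zero, smul_zero]
      smul_mem' := fun b x hx => by
        show σ₀ • (b • x) = a • (b • x)
        rw [smul_comm, hx, smul_comm] }
  refine ⟨C', ?_, ?_⟩
  · intro τ x hx
    show σ₀ • (τ • x) = a • (τ • x)
    rw [hcomm, hx, smul_comm]
  · refine ⟨?_, ?_⟩
    · rw [Submodule.disjoint_def]
      intro x hxC hxC'
      have h1 : σ₀ • x = a • x := hxC'
      rw [hadm.fixed_sub σ₀ x hxC] at h1
      have h2 : (1 - a) • x = 0 := by rw [sub_smul, one_smul]; exact sub_eq_zero.mpr h1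
      have := congrArg (fun y => (1 - a)⁻¹ • y) h2
      simpa [smul_smul, inv_mul_cancel₀ hne] using this
    · rw [codisjoint_iff, eq_top_iff]
      intro v _
      set d : V := σ₀ • v - a • v with hd
      have hdC : d ∈ C := smul_sub_chi_smul_mem hadm σ₀ v
      set c : V := (1 - a)⁻¹ • d with hc
      have hcC : c ∈ C := C.smul_mem _ hdC
      have hdc : d = (1 - a) • c := by
        rw [hc, smul_smul, mul_inv_cancel₀ hne, one_smul]
      have hc' : v - c ∈ C' := by
        show σ₀ • (v - c) = a • (v - c)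
        rw [smul_sub, smul_sub, hadm.fixed_sub σ₀ c hcC]
        have : σ₀ • v = a • v + d := by rw [hd]; abel
        rw [this, hdc, sub_smul, one_smul]; abel
      have : v = c + (v - c) := by abel
      rw [this]
      exact Submodule.add_mem_sup hcC hc'

end Ext

end Fermat.Agent.CFT.S14
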