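import Mathlib
import Fermat.Agent.CFT.S14.Cocycle_helper5

set_option autoImplicit false
set_option linter.style.haveILetI false
set_option linter.unusedSectionVars false

open IntermediateField

namespace Fermat.Agent.CFT.S14

/-- `ℚ̄`. -/
abbrev Qbar : Type := AlgebraicClosure ℚ

theorem isAlgebraic_Qbar : Algebra.IsAlgebraic ℚ Qbar := by
  have e : (AlgebraicClosure.instAlgebra ℚ : Algebra ℚ (AlgebraicClosure ℚ)) =
      DivisionRing.toRatAlgebra := Subsingleton.elim _ _
  have h : @Algebra.IsAlgebraic ℚ (AlgebraicClosure ℚ) _ _ (AlgebraicClosure.instAlgebra ℚ) :=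
    AlgebraicClosure.isAlgebraic ℚ
  exact e ▸ h

instance instIsAlgebraicQbar : Algebra.IsAlgebraic ℚ Qbar := isAlgebraic_Qbar

instance instIsAlgClosureQbar : IsAlgClosure ℚ Qbar := ⟨inferInstance, inferInstance⟩

instance instIsGaloisQbar : IsGalois ℚ Qbar := IsAlgClosure.isGalois ℚ Qbar

section Fields

variable (K₀ : IntermediateField ℚ Qbar) (N : Subgroup GQ)

theorem fixingSubgroup_fixedField_of_isOpen (hN : IsOpen (N : Set GQ)) :
    (fixedField N).fixingSubgroup = N := by
  have hcl : IsClosed (N : Set GQ) := Subgroup.isClosed_of_isOpen N hN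
  exact InfiniteGalois.fixingSubgroup_fixedField ⟨N, hcl⟩

theorem finiteDimensional_fixedField (hN : IsOpen (N : Set GQ)) :
    FiniteDimensional ℚ (fixedField N) := by
  have h := (InfiniteGalois.isOpen_iff_finite (fixedField N)).mp
    (by rw [fixingSubgroup_fixedField_of_isOpen N hN]; exact hN)
  exact h

theorem isGalois_fixedField [N.Normal] (hN : IsOpen (N : Set GQ)) :
    IsGalois ℚ (fixedField N) := by
  have h := (InfiniteGalois.normal_iff_isGalois (fixedField N)).mp
    (by rw [fixingSubgroup_fixedField_of_isOpen N hN]; infer_instance)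
  exact h

variable {K₀ N}

theorem le_fixedField (hNK : N ≤ K₀.fixingSubgroup) : K₀ ≤ fixedField N :=
  (IntermediateField.le_iff_le _ _).mpr hNK

/-- The field `L = ℚ̄^N` as an extension of `K₀`. -/
noncomputable abbrev LK (hNK : N ≤ K₀.fixingSubgroup) : IntermediateField K₀ Qbar :=
  IntermediateField.extendScalars (le_fixedField hNK)

theorem mem_LK (hNK : N ≤ K₀.fixingSubgroup) (x : Qbar) :
    x ∈ LK hNK ↔ ∀ σ ∈ N, σ x = x := by
  rw [IntermediateField.mem_extendScalars, IntermediateField.mem_fixedField_iff]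

variable (hNK : N ≤ K₀.fixingSubgroup)

theorem finiteDimensional_LK (hN : IsOpen (N : Set GQ)) : FiniteDimensional ℚ (LK hNK) := by
  haveI := finiteDimensional_fixedField N hN
  let e : (fixedField N) ≃ₗ[ℚ] (LK hNK) :=
    { toFun := fun x => ⟨x.1, x.2⟩
      invFun := fun x => ⟨x.1, x.2⟩
      map_add' := fun _ _ => rfl
      map_smul' := fun _ _ => rfl
      left_inv := fun _ => rfl
      right_inv := fun _ => rfl }
  exact LinearEquiv.finiteDimensional e

theorem numberField_LK (hN : IsOpen (N : Set GQ)) : NumberField (LK hNK) :=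
  { to_charZero := inferInstance
    to_finiteDimensional := finiteDimensional_LK hNK hN }

theorem normal_LK_rat [N.Normal] (hN : IsOpen (N : Set GQ)) : Normal ℚ (LK hNK) := by
  haveI := isGalois_fixedField N hN
  have h : Normal ℚ (fixedField N) := inferInstance
  let e : (fixedField N) ≃ₐ[ℚ] (LK hNK) :=
    { toFun := fun x => ⟨x.1, x.2⟩
      invFun := fun x => ⟨x.1, x.2⟩
      map_add' := fun _ _ => rfl
      map_mul' := fun _ _ => rfl
      commutes' := fun _ => rfl
      left_inv := fun _ => rfl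
      right_inv := fun _ => rfl }
  exact Normal.of_algEquiv e

theorem isGalois_LK [N.Normal] (hN : IsOpen (N : Set GQ)) : IsGalois K₀ (LK hNK) := by
  haveI := normal_LK_rat hNK hN
  haveI : Normal K₀ (LK hNK) := Normal.tower_top_of_normal ℚ K₀ (LK hNK)
  exact ⟨⟩

section Instances

variable [N.Normal] [hNo : Fact (IsOpen (N : Set GQ))]

instance instNumberFieldLK : NumberField (LK hNK) := numberField_LK hNK hNo.out

instance instNormalLKRat : Normal ℚ (LK hNK) := normal_LK_rat hNK hNo.out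

instance instIsGaloisLK : IsGalois K₀ (LK hNK) := isGalois_LK hNK hNo.out

/-- Restriction to `L` of an element of `G_ℚ` fixing `K₀`. -/
noncomputable def resLK (σ : GQ) (hσ : σ ∈ K₀.fixingSubgroup) : (LK hNK) ≃ₐ[K₀] (LK hNK) :=
  AlgEquiv.restrictNormal (IntermediateField.fixingSubgroupEquiv K₀ ⟨σ, hσ⟩) (LK hNK)

theorem coe_resLK (σ : GQ) (hσ : σ ∈ K₀.fixingSubgroup) (x : LK hNK) :
    ((resLK hNK σ hσ x : LK hNK) : Qbar) = σ (x : Qbar) :=
  AlgEquiv.restrictNormal_commutes (IntermediateField.fixingSubgroupEquiv K₀ ⟨σ, hσ⟩) (LK hNK) x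

/-- Restriction to `L` of an arbitrary element of `G_ℚ`. -/
noncomputable def resLQ (δ : GQ) : (LK hNK) ≃ₐ[ℚ] (LK hNK) :=
  AlgEquiv.restrictNormal δ (LK hNK)

theorem coe_resLQ (δ : GQ) (x : LK hNK) :
    ((resLQ hNK δ x : LK hNK) : Qbar) = δ (x : Qbar) :=
  AlgEquiv.restrictNormal_commutes δ (LK hNK) x

theorem resLK_eq_one_iff (σ : GQ) (hσ : σ ∈ K₀.fixingSubgroup) :
    resLK hNK σ hσ = 1 ↔ σ ∈ N := by
  constructor
  · intro h
    rw [← fixingSubgroup_fixedField_of_isOpen N hNo.out, IntermediateField.mem_fixingSubgroup_iff]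
    intro x hx
    have := coe_resLK hNK σ hσ ⟨x, hx⟩
    rw [h] at this
    exact this.symm
  · intro h
    ext x
    rw [coe_resLK]
    exact (mem_LK hNK x.1).mp x.2 σ h

theorem resLK_mul (σ τ : GQ) (hσ : σ ∈ K₀.fixingSubgroup) (hτ : τ ∈ K₀.fixingSubgroup) :
    resLK hNK (σ * τ) (mul_mem hσ hτ) = resLK hNK σ hσ * resLK hNK τ hτ := by
  ext x
  rw [coe_resLK]
  show σ (τ ↑x) = ↑(resLK hNK σ hσ (resLK hNK τ hτ x))
  rw [coe_resLK, coe_resLK]

theorem resLK_surjective (s : (LK hNK) ≃ₐ[K₀] (LK hNK)) :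
    ∃ (σ : GQ) (hσ : σ ∈ K₀.fixingSubgroup), resLK hNK σ hσ = s := by
  obtain ⟨σ', hσ'⟩ := AlgEquiv.restrictNormalHom_surjective (F := K₀) (K₁ := LK hNK) Qbar s
  refine ⟨((IntermediateField.fixingSubgroupEquiv K₀).symm σ').1,
    ((IntermediateField.fixingSubgroupEquiv K₀).symm σ').2, ?_⟩
  rw [← hσ']
  ext x
  rw [coe_resLK]
  have := AlgEquiv.restrictNormal_commutes σ' (LK hNK) x
  rw [AlgEquiv.restrictNormalHom]
  exact this.symm

end Instances

end Fields

end Fermat.Agent.CFT.S14
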