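import Mathlib
import Fermat.Agent.CFT.S14.Fields_helper5
import Fermat.Agent.S54_ValuationRing
import Fermat.Agent.S54_Frobenius

set_option autoImplicit false
set_option linter.style.haveILetI false
set_option linter.unusedSectionVars false

open IntermediateField
open scoped NumberField Pointwise

namespace Fermat.Agent.CFT.S14

/-- The localisation of `𝓞 ℚ̄` at a prime `Q`, as a valuation subring of `ℚ̄`. -/
theorem exists_valuationSubring_of_prime_Qbar (Q : Ideal (𝓞 Qbar)) [Q.IsPrime] :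
    ∃ A : ValuationSubring Qbar,
      (∀ x : Qbar, x ∈ A ↔ ∃ b s : 𝓞 Qbar, s ∉ Q ∧ x * (s : Qbar) = (b : Qbar)) ∧
      (∀ x : Qbar, x ∈ A.nonunits ↔
        ∃ b s : 𝓞 Qbar, b ∈ Q ∧ s ∉ Q ∧ x * (s : Qbar) = (b : Qbar)) :=
  @Fermat.Agent.S54V.exists_valuationSubring_of_prime Qbar _ _ _ Q ‹_›

theorem coe_smul_ringOfIntegers (σ : GQ) (b : 𝓞 Qbar) : ((σ • b : 𝓞 Qbar) : Qbar) = σ (b : Qbar) := rfl

/-- An element of `G_ℚ` acting trivially on `𝓞 ℚ̄ / Q` lies in the inertia subgroup of the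
valuation ring of `Q`. -/
theorem mem_inertiaSubgroupIn_of_forall_sub_mem {Q : Ideal (𝓞 Qbar)} [Q.IsPrime]
    {A : ValuationSubring Qbar}
    (hA : ∀ x : Qbar, x ∈ A ↔ ∃ b s : 𝓞 Qbar, s ∉ Q ∧ x * (s : Qbar) = (b : Qbar))
    (hA' : ∀ x : Qbar, x ∈ A.nonunits ↔
      ∃ b s : 𝓞 Qbar, b ∈ Q ∧ s ∉ Q ∧ x * (s : Qbar) = (b : Qbar))
    (σ : GQ) (hσ : ∀ b : 𝓞 Qbar, σ • b - b ∈ Q) : σ ∈ A.inertiaSubgroupIn ℚ := by
  -- general facts for any `τ` acting trivially mod `Q`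
  have key : ∀ τ : GQ, (∀ b : 𝓞 Qbar, τ • b - b ∈ Q) →
      (∀ x : Qbar, x ∈ A → τ x ∈ A) ∧ (∀ x : Qbar, x ∈ A → τ x - x ∈ A.nonunits) := by
    intro τ hτ
    have hnot : ∀ s : 𝓞 Qbar, s ∉ Q → τ • s ∉ Q := by
      intro s hs h
      apply hs
      have := Q.sub_mem h (hτ s)
      simpa using this
    refine ⟨?_, ?_⟩
    · intro x hx
      obtain ⟨b, s, hs, hxs⟩ := (hA x).mp hx
      refine (hA _).mpr ⟨τ • b, τ • s, hnot s hs, ?_⟩
      rw [coe_smul_ringOfIntegers, coe_smul_ringOfIntegers, ← map_mul, hxs]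
    · intro x hx
      obtain ⟨b, s, hs, hxs⟩ := (hA x).mp hx
      refine (hA' _).mpr ⟨(τ • b - b) * s - b * (τ • s - s), s * (τ • s), ?_, ?_, ?_⟩
      · exact Q.sub_mem (Q.mul_mem_right _ (hτ b)) (Q.mul_mem_left _ (hτ s))
      · intro h
        rcases (Ideal.IsPrime.mem_or_mem ‹Q.IsPrime› h) with h | h
        · exact hs h
        · exact hnot s hs h
      · have h1 : τ x * τ (s : Qbar) = τ (b : Qbar) := by rw [← map_mul, hxs]
        push_cast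
        simp only [AlgEquiv.smul_def]
        linear_combination (s : Qbar) * h1 - τ (s : Qbar) * hxs
  have hinv : ∀ b : 𝓞 Qbar, σ⁻¹ • b - b ∈ Q := by
    intro b
    have := hσ (σ⁻¹ • b)
    rw [smul_inv_smul] at this
    have h2 := Q.neg_mem this
    simpa using h2
  obtain ⟨h1, h2⟩ := key σ hσ
  obtain ⟨h1', -⟩ := key σ⁻¹ hinv
  have hσA : σ ∈ A.decompositionSubgroup ℚ := by
    rw [MulAction.mem_stabilizer_iff]
    ext x
    rw [ValuationSubring.mem_pointwise_smul_iff_inv_smul_mem]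
    constructor
    · intro h
      have := h1 _ h
      simpa [AlgEquiv.smul_def] using this
    · intro h
      exact h1' x h
  rw [ValuationSubring.inertiaSubgroupIn, Subgroup.mem_map]
  refine ⟨⟨σ, hσA⟩, ?_, rfl⟩
  rw [ValuationSubring.inertiaSubgroup, MonoidHom.mem_ker]
  ext xbar
  obtain ⟨a, rfl⟩ := IsLocalRing.residue_surjective xbar
  show (⟨σ, hσA⟩ : A.decompositionSubgroup ℚ) • (IsLocalRing.residue A a) = IsLocalRing.residue A a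
  rw [← IsLocalRing.ResidueField.residue_smul]
  rw [← sub_eq_zero, ← map_sub, IsLocalRing.residue_eq_zero_iff, A.valuation_lt_one_iff]
  have := h2 a a.2
  rw [ValuationSubring.mem_nonunits_iff] at this
  exact this

theorem liesOverPrime_of_mem {Q : Ideal (𝓞 Qbar)} [Q.IsPrime] {A : ValuationSubring Qbar}
    (hA' : ∀ x : Qbar, x ∈ A.nonunits ↔
      ∃ b s : 𝓞 Qbar, b ∈ Q ∧ s ∉ Q ∧ x * (s : Qbar) = (b : Qbar))
    {ℓ : ℕ} (hℓ : (ℓ : 𝓞 Qbar) ∈ Q) : A.LiesOverPrime ℓ := by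
  rw [ValuationSubring.LiesOverPrime, hA']
  refine ⟨(ℓ : 𝓞 Qbar), 1, hℓ, ?_, by simp⟩
  exact fun h => (Ideal.IsPrime.ne_top ‹Q.IsPrime›) ((Ideal.eq_top_iff_one Q).mpr h)

section Profinite

variable {K₀ : IntermediateField ℚ Qbar} {N : Subgroup GQ} (hNK : N ≤ K₀.fixingSubgroup)

theorem coe_algebraMap_LK (a : 𝓞 (LK hNK)) :
    ((algebraMap (𝓞 (LK hNK)) (𝓞 Qbar) a : 𝓞 Qbar) : Qbar) = ((a : LK hNK) : Qbar) := rfl

instance instSMulCommClassN : SMulCommClass ↥N (𝓞 (LK hNK)) (𝓞 Qbar) where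
  smul_comm n a b := by
    apply NumberField.RingOfIntegers.ext
    rw [Algebra.smul_def, Algebra.smul_def]
    show (n : GQ) ((algebraMap (𝓞 (LK hNK)) (𝓞 Qbar) a : 𝓞 Qbar) * b : 𝓞 Qbar) = _
    push_cast
    rw [map_mul]
    congr 1
    show (n : GQ) (((a : LK hNK) : Qbar)) = ((a : LK hNK) : Qbar)
    exact (mem_LK hNK _).mp (a : LK hNK).2 n n.2

instance instIsInvariantN : Algebra.IsInvariant (𝓞 (LK hNK)) (𝓞 Qbar) ↥N where
  isInvariant b hb := by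
    have hfix : ∀ σ ∈ N, σ (b : Qbar) = (b : Qbar) := fun σ hσ =>
      congrArg (fun y : 𝓞 Qbar => (y : Qbar)) (hb ⟨σ, hσ⟩)
    have hmem : (b : Qbar) ∈ LK hNK := (mem_LK hNK _).mpr hfix
    have hint : IsIntegral ℤ (⟨(b : Qbar), hmem⟩ : LK hNK) := by
      have h1 : IsIntegral ℤ (b : Qbar) := b.2
      exact (isIntegral_algebraMap_iff (algebraMap (LK hNK) Qbar).injective).mp h1
    exact ⟨⟨⟨(b : Qbar), hmem⟩, hint⟩, NumberField.RingOfIntegers.ext rfl⟩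

theorem continuousSMul_GQ :
    letI : TopologicalSpace (𝓞 Qbar) := ⊥
    ContinuousSMul GQ (𝓞 Qbar) := by
  letI : TopologicalSpace (𝓞 Qbar) := ⊥
  haveI : DiscreteTopology (𝓞 Qbar) := ⟨rfl⟩
  refine ⟨?_⟩
  apply IsLocallyConstant.continuous
  rw [IsLocallyConstant.iff_exists_open]
  rintro ⟨g, b⟩
  refine ⟨(g • (MulAction.stabilizer GQ (b : Qbar) : Set GQ)) ×ˢ {b}, ?_, ?_, ?_⟩
  · exact ((stabilizer_isOpen_of_isIntegral (K := ℚ) (b : Qbar)).leftCoset g).prod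
      (isOpen_discrete _)
  · exact ⟨⟨1, by simp, by simp⟩, rfl⟩
  · rintro ⟨g', b'⟩ ⟨⟨h, hh, rfl⟩, hb'⟩
    have hb'' : b' = b := hb'
    subst hb''
    apply NumberField.RingOfIntegers.ext
    show (g * h) (b' : Qbar) = g (b' : Qbar)
    have : h (b' : Qbar) = (b' : Qbar) := hh
    simp [this]

variable [hNo : Fact (IsOpen (N : Set GQ))]

instance instCompactSpaceN : CompactSpace ↥N :=
  isCompact_iff_compactSpace.mp (Subgroup.isClosed_of_isOpen N hNo.out).isCompact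

/-- **Transitivity**: `N = Gal(ℚ̄/L)` acts transitively on the primes of `𝓞 ℚ̄` above a prime of
`𝓞 L`. -/
theorem exists_smul_eq_of_under_eq (P Q : Ideal (𝓞 Qbar)) [P.IsPrime] [Q.IsPrime]
    (hPQ : P.under (𝓞 (LK hNK)) = Q.under (𝓞 (LK hNK))) : ∃ n : ↥N, Q = n • P := by
  letI : TopologicalSpace (𝓞 Qbar) := ⊥
  haveI : DiscreteTopology (𝓞 Qbar) := ⟨rfl⟩
  haveI : ContinuousSMul GQ (𝓞 Qbar) := continuousSMul_GQ
  exact Algebra.IsInvariant.exists_smul_of_under_eq_of_profinite (A := 𝓞 (LK hNK)) (G := ↥N)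
    P Q hPQ

/-- **Surjectivity onto residue automorphisms** for `N = Gal(ℚ̄/L)`. -/
theorem stabilizerHom_surjective_N (P : Ideal (𝓞 (LK hNK))) (Q : Ideal (𝓞 Qbar)) [Q.IsPrime]
    [Q.LiesOver P] : Function.Surjective (Ideal.Quotient.stabilizerHom Q P ↥N) := by
  letI : TopologicalSpace (𝓞 Qbar) := ⊥
  haveI : DiscreteTopology (𝓞 Qbar) := ⟨rfl⟩
  haveI : ContinuousSMul GQ (𝓞 Qbar) := continuousSMul_GQ
  exact Ideal.Quotient.stabilizerHom_surjective_of_profinite (G := ↥N) P Q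

instance instIsIntegralLKQbar : Algebra.IsIntegral (𝓞 (LK hNK)) (𝓞 Qbar) :=
  ⟨fun b => by
    have h1 : IsIntegral ℤ b := by
      have := b.2
      exact (NumberField.RingOfIntegers.isIntegral b)
    exact h1.tower_top⟩

theorem exists_prime_natCast_mem (𝔔 : Ideal (𝓞 (LK hNK))) [𝔔.IsPrime] (h𝔔 : 𝔔 ≠ ⊥) :
    ∃ ℓ : ℕ, ℓ.Prime ∧ (ℓ : 𝓞 (LK hNK)) ∈ 𝔔 := by
  have h1 : 𝔔.under ℤ ≠ ⊥ := Ideal.under_ne_bot ℤ h𝔔
  have h2 : (𝔔.under ℤ).IsPrime := inferInstance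
  obtain ⟨n, hn⟩ := (IsPrincipalIdealRing.principal (𝔔.under ℤ)).principal
  have hn0 : n ≠ 0 := by
    rintro rfl
    apply h1
    rw [hn]; simp
  have hnprime : Prime n := by
    have h3 : (Ideal.span {n}).IsPrime := by rw [← Ideal.submodule_span_eq, ← hn]; exact h2
    exact (Ideal.span_singleton_prime hn0).mp h3
  refine ⟨n.natAbs, Int.prime_iff_natAbs_prime.mp hnprime, ?_⟩
  have hmem : ((n.natAbs : ℕ) : ℤ) ∈ 𝔔.under ℤ := by
    rw [hn]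
    exact Submodule.mem_span_singleton.mpr (by
      obtain ⟨c, hc⟩ := (Int.dvd_natAbs.mpr (dvd_refl n) : n ∣ ((n.natAbs : ℕ) : ℤ))
      exact ⟨c, by rw [hc]; simp [mul_comm]⟩)
  have := (Ideal.mem_comap).mp hmem
  simpa using this

variable [N.Normal]

theorem coe_algebraMap_smul_resLK (σ : GQ) (hσ : σ ∈ K₀.fixingSubgroup) (x : 𝓞 (LK hNK)) :
    σ • (algebraMap (𝓞 (LK hNK)) (𝓞 Qbar) x) =
      algebraMap (𝓞 (LK hNK)) (𝓞 Qbar) (resLK hNK σ hσ • x) := by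
  apply NumberField.RingOfIntegers.ext
  show σ (((x : LK hNK) : Qbar)) = (((resLK hNK σ hσ • x : 𝓞 (LK hNK)) : LK hNK) : Qbar)
  exact (coe_resLK hNK σ hσ (x : LK hNK)).symm

/-- **Lifting inertia**: every element of the inertia group of a prime `𝔔` of `L` in
`Gal(L/K₀)` is the restriction of an element of `G_ℚ` fixing `K₀` and lying in the inertia
subgroup of a valuation subring of `ℚ̄` above the residue characteristic of `𝔔`. -/
theorem exists_lift_mem_inertiaSubgroupIn (𝔔 : Ideal (𝓞 (LK hNK))) [𝔔.IsPrime] (h𝔔 : 𝔔 ≠ ⊥)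
    (s : (LK hNK) ≃ₐ[K₀] (LK hNK)) (hs : ∀ x : 𝓞 (LK hNK), s • x - x ∈ 𝔔) :
    ∃ (ℓ : ℕ) (A : ValuationSubring Qbar) (σ : GQ) (hσ : σ ∈ K₀.fixingSubgroup),
      ℓ.Prime ∧ A.LiesOverPrime ℓ ∧ σ ∈ A.inertiaSubgroupIn ℚ ∧ resLK hNK σ hσ = s := by
  classical
  -- a prime of `𝓞 ℚ̄` above `𝔔`
  obtain ⟨Q, -, hQprime, hQ𝔔⟩ := Ideal.exists_ideal_over_prime_of_isIntegral 𝔔
    (⊥ : Ideal (𝓞 Qbar)) (by
      rw [← RingHom.ker_eq_comap_bot]
      have : Function.Injective (algebraMap (𝓞 (LK hNK)) (𝓞 Qbar)) :=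
        FaithfulSMul.algebraMap_injective _ _
      rw [(RingHom.injective_iff_ker_eq_bot _).mp this]
      exact bot_le)
  haveI := hQprime
  haveI : Q.LiesOver 𝔔 := ⟨hQ𝔔.symm⟩
  -- `s` and `s⁻¹` preserve `𝔔`
  have hs𝔔 : ∀ x : 𝓞 (LK hNK), s • x ∈ 𝔔 ↔ x ∈ 𝔔 := by
    intro x
    constructor
    · intro h; have := 𝔔.sub_mem h (hs x); simpa using this
    · intro h; have := 𝔔.add_mem (hs x) h; simpa using this
  -- a first lift
  obtain ⟨σ₀, hσ₀K, hσ₀s⟩ := resLK_surjective hNK s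
  -- `σ₀ • Q` lies over `𝔔` as well
  have hunder : (σ₀ • Q).under (𝓞 (LK hNK)) = Q.under (𝓞 (LK hNK)) := by
    ext x
    rw [Ideal.under_def, Ideal.under_def, Ideal.mem_comap, Ideal.mem_comap,
      Ideal.mem_pointwise_smul_iff_inv_smul_mem,
      coe_algebraMap_smul_resLK hNK σ₀⁻¹ (inv_mem hσ₀K) x]
    have e : resLK hNK σ₀⁻¹ (inv_mem hσ₀K) = s⁻¹ := by
      rw [eq_inv_iff_mul_eq_one, ← hσ₀s, ← resLK_mul, resLK_eq_one_iff]
      simp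
    rw [e]
    show s⁻¹ • x ∈ Q.under (𝓞 (LK hNK)) ↔ x ∈ Q.under (𝓞 (LK hNK))
    rw [← Ideal.over_def Q 𝔔]
    rw [← hs𝔔 (s⁻¹ • x), smul_inv_smul]
  obtain ⟨n, hn⟩ := exists_smul_eq_of_under_eq hNK (σ₀ • Q) Q hunder
  set σ₁ : GQ := (n : GQ) * σ₀ with hσ₁
  have hσ₁Q : σ₁ • Q = Q := by rw [hσ₁, mul_smul]; exact hn.symm
  have hnK : (n : GQ) ∈ K₀.fixingSubgroup := hNK n.2
  have hσ₁K : σ₁ ∈ K₀.fixingSubgroup := mul_mem hnK hσ₀K
  have hσ₁s : resLK hNK σ₁ hσ₁K = s := by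
    rw [resLK_mul hNK _ _ hnK hσ₀K, hσ₀s, (resLK_eq_one_iff hNK _ hnK).mpr n.2, one_mul]
  -- the automorphism of `𝓞 ℚ̄ / Q` over `𝓞 L / 𝔔` induced by `σ₁`
  let r : (𝓞 Qbar ⧸ Q) ≃+* (𝓞 Qbar ⧸ Q) :=
    Ideal.quotientEquiv Q Q (MulSemiringAction.toRingEquiv GQ (𝓞 Qbar) σ₁) (by
      conv_lhs => rw [← hσ₁Q]
      rfl)
  have hr : ∀ b : 𝓞 Qbar, r (Ideal.Quotient.mk Q b) = Ideal.Quotient.mk Q (σ₁ • b) := fun b => rfl
  let abar : (𝓞 Qbar ⧸ Q) ≃ₐ[𝓞 (LK hNK) ⧸ 𝔔] (𝓞 Qbar ⧸ Q) :=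
    AlgEquiv.ofRingEquiv (f := r) (by
      intro x
      obtain ⟨x, rfl⟩ := Ideal.Quotient.mk_surjective x
      show r (Ideal.Quotient.mk Q (algebraMap _ _ x)) = Ideal.Quotient.mk Q (algebraMap _ _ x)
      rw [hr, coe_algebraMap_smul_resLK hNK σ₁ hσ₁K x, hσ₁s, Ideal.Quotient.eq, ← map_sub]
      show s • x - x ∈ Q.under (𝓞 (LK hNK))
      rw [← Ideal.over_def Q 𝔔]
      exact hs x)
  obtain ⟨⟨n', hn'Q⟩, hn'⟩ := stabilizerHom_surjective_N hNK 𝔔 Q abar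
  set σ : GQ := ((n' : GQ))⁻¹ * σ₁ with hσdef
  have hn'K : ((n' : GQ))⁻¹ ∈ K₀.fixingSubgroup := inv_mem (hNK n'.2)
  have hσK : σ ∈ K₀.fixingSubgroup := mul_mem hn'K hσ₁K
  have hσs : resLK hNK σ hσK = s := by
    rw [resLK_mul hNK _ _ hn'K hσ₁K, hσ₁s,
      (resLK_eq_one_iff hNK _ hn'K).mpr (inv_mem n'.2), one_mul]
  -- `σ` acts trivially on `𝓞 ℚ̄ / Q`
  have hσtriv : ∀ b : 𝓞 Qbar, σ • b - b ∈ Q := by
    intro b
    rw [← Ideal.Quotient.eq]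
    have h1 : Ideal.Quotient.stabilizerHom Q 𝔔 ↥N ⟨n', hn'Q⟩ (Ideal.Quotient.mk Q (σ • b)) =
        abar (Ideal.Quotient.mk Q b) := by
      rw [Ideal.Quotient.stabilizerHom_apply]
      show Ideal.Quotient.mk Q ((n' : GQ) • σ • b) = r (Ideal.Quotient.mk Q b)
      rw [hr, hσdef, mul_smul, smul_inv_smul]
    rw [hn'] at h1
    exact abar.injective h1
  obtain ⟨A, hA, hA'⟩ := exists_valuationSubring_of_prime_Qbar Q
  obtain ⟨ℓ, hℓ, hℓ𝔔⟩ := exists_prime_natCast_mem hNK 𝔔 h𝔔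
  refine ⟨ℓ, A, σ, hσK, hℓ, ?_, mem_inertiaSubgroupIn_of_forall_sub_mem hA hA' σ hσtriv, hσs⟩
  apply liesOverPrime_of_mem hA'
  have : algebraMap (𝓞 (LK hNK)) (𝓞 Qbar) (ℓ : 𝓞 (LK hNK)) ∈ Q := by
    show (ℓ : 𝓞 (LK hNK)) ∈ Q.under (𝓞 (LK hNK))
    rw [← Ideal.over_def Q 𝔔]
    exact hℓ𝔔
  simpa using this

end Profinite

end Fermat.Agent.CFT.S14
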