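import Mathlib
import Fermat.Agent.CFT.S14.Fields_helper5
import Fermat.Prelude.Def_ClassGroup_GaloisAction

set_option autoImplicit false
set_option linter.style.haveILetI false
set_option linter.unusedSectionVars false

open IntermediateField
open scoped NumberField

namespace Fermat.Agent.CFT.S14

variable (p : ℕ) [Fact p.Prime]

instance instNeZeroP : NeZero p := ⟨(Fact.out : p.Prime).ne_zero⟩

theorem exists_primitiveRoot_Qbar : ∃ ζ : Qbar, IsPrimitiveRoot ζ p :=
  HasEnoughRootsOfUnity.exists_primitiveRoot Qbar p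

/-- A primitive `p`-th root of unity in `ℚ̄`. -/
noncomputable def zetaP : Qbar := (exists_primitiveRoot_Qbar p).choose

theorem zetaP_spec : IsPrimitiveRoot (zetaP p) p := (exists_primitiveRoot_Qbar p).choose_spec

/-- The cyclotomic field `ℚ(ζ_p) ⊆ ℚ̄`. -/
noncomputable def Kp : IntermediateField ℚ Qbar := IntermediateField.adjoin ℚ {zetaP p}

instance instIsCyclotomicKp : IsCyclotomicExtension {p} ℚ (Kp p) :=
  (zetaP_spec p).intermediateField_adjoin_isCyclotomicExtension ℚ

instance instNumberFieldKp : NumberField (Kp p) := IsCyclotomicExtension.numberField {p} ℚ (Kp p)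

theorem chi_apply_zetaP (σ : GQ) : σ (zetaP p) = zetaP p ^ ((chi p σ : ZMod p)).val := by
  have h := zetaP_spec p
  have hmem : h.toRootsOfUnity.1 ∈ rootsOfUnity p Qbar := h.toRootsOfUnity.2
  exact chi_spec p σ hmem

theorem chi_eq_one_iff (σ : GQ) : chi p σ = 1 ↔ σ (zetaP p) = zetaP p := by
  have h := zetaP_spec p
  have hp := (Fact.out : p.Prime).one_lt
  rw [chi_apply_zetaP]
  constructor
  · intro h1
    rw [h1, Units.val_one, ZMod.val_one'' (by omega), pow_one]
  · intro h1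
    have h2 : zetaP p ^ ((chi p σ : ZMod p)).val = zetaP p ^ 1 := by rw [h1, pow_one]
    have h3 := h.pow_inj (ZMod.val_lt _) hp h2
    ext
    rw [Units.val_one]
    have h4 : ((((chi p σ : ZMod p)).val : ℕ) : ZMod p) = ((1 : ℕ) : ZMod p) := by rw [h3]
    rwa [ZMod.natCast_zmod_val, Nat.cast_one] at h4

theorem mem_fixingSubgroup_Kp_iff (σ : GQ) : σ ∈ (Kp p).fixingSubgroup ↔ chi p σ = 1 := by
  rw [chi_eq_one_iff]
  constructor
  · intro h
    exact (IntermediateField.mem_fixingSubgroup_iff _ _).mp h _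
      (IntermediateField.mem_adjoin_simple_self ℚ (zetaP p))
  · intro h
    have h1 : Kp p ≤ fixedField (Subgroup.zpowers σ) := by
      rw [Kp, IntermediateField.adjoin_simple_le_iff, IntermediateField.mem_fixedField_iff]
      intro τ hτ
      obtain ⟨n, rfl⟩ := Subgroup.mem_zpowers_iff.mp hτ
      have hfix : σ ∈ MulAction.stabilizer GQ (zetaP p) := h
      exact (Subgroup.zpow_mem _ hfix n)
    exact ((IntermediateField.le_iff_le _ _).mp h1) (Subgroup.mem_zpowers σ)

theorem fixingSubgroup_Kp : (Kp p).fixingSubgroup = (chi p).ker := by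
  ext σ
  rw [mem_fixingSubgroup_Kp_iff, MonoidHom.mem_ker]

instance instIsGaloisKp : IsGalois ℚ (Kp p) := IsCyclotomicExtension.isGalois {p} ℚ (Kp p)

/-- Restriction of an element of `G_ℚ` to `ℚ(ζ_p)`. -/
noncomputable def resKp (σ : GQ) : (Kp p) ≃ₐ[ℚ] (Kp p) := AlgEquiv.restrictNormal σ (Kp p)

theorem coe_resKp (σ : GQ) (x : Kp p) : ((resKp p σ x : Kp p) : Qbar) = σ (x : Qbar) :=
  AlgEquiv.restrictNormal_commutes σ (Kp p) x

theorem resKp_surjective : Function.Surjective (resKp p) :=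
  AlgEquiv.restrictNormalHom_surjective (F := ℚ) (K₁ := Kp p) Qbar

theorem cycloGalEquiv_resKp (σ : GQ) :
    JacobiSumStickelberger.cycloGalEquiv p (Kp p) (resKp p σ) = chi p σ := by
  have hμ := IsCyclotomicExtension.zeta_spec p ℚ (Kp p)
  set μ := IsCyclotomicExtension.zeta p ℚ (Kp p) with hμdef
  have hp := (Fact.out : p.Prime).one_lt
  -- the image of `μ` in `ℚ̄` is a `p`-th root of unity
  have hμ' : IsPrimitiveRoot ((μ : Kp p) : Qbar) p :=
    hμ.map_of_injective (algebraMap (Kp p) Qbar).injective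
  have h1 : σ ((μ : Kp p) : Qbar) = ((μ : Kp p) : Qbar) ^ ((chi p σ : ZMod p)).val :=
    chi_spec p σ hμ'.toRootsOfUnity.2
  have h2 : μ ^ ((JacobiSumStickelberger.cycloGalEquiv p (Kp p) (resKp p σ) : (ZMod p)ˣ) :
      ZMod p).val = resKp p σ μ := by
    unfold JacobiSumStickelberger.cycloGalEquiv
    rw [IsCyclotomicExtension.autEquivPow_apply]
    exact hμ.autToPow_spec ℚ (resKp p σ)
  have h3 : ((μ : Kp p) : Qbar) ^ ((JacobiSumStickelberger.cycloGalEquiv p (Kp p) (resKp p σ) :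
      (ZMod p)ˣ) : ZMod p).val = ((μ : Kp p) : Qbar) ^ ((chi p σ : ZMod p)).val := by
    rw [← h1, ← coe_resKp, ← h2]
    rfl
  have h4 := hμ'.pow_inj (ZMod.val_lt _) (ZMod.val_lt _) h3
  ext
  exact ZMod.val_injective p h4

theorem chi_surjective : Function.Surjective (chi p) := by
  intro d
  obtain ⟨σ, hσ⟩ := resKp_surjective p ((JacobiSumStickelberger.cycloGalEquiv p (Kp p)).symm d)
  refine ⟨σ, ?_⟩
  rw [← cycloGalEquiv_resKp, hσ, MulEquiv.apply_symm_apply]

theorem exists_chi_ne_one (h3 : 3 ≤ p) : ∃ σ₀ : GQ, chi p σ₀ ≠ 1 := by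
  haveI : Fact (1 < p) := ⟨(Fact.out : p.Prime).one_lt⟩
  have h2 : (2 : ZMod p) ≠ 0 := by
    intro h
    have : (p : ℕ) ∣ 2 := (ZMod.natCast_eq_zero_iff 2 p).mp (by exact_mod_cast h)
    have := Nat.le_of_dvd (by norm_num) this
    omega
  obtain ⟨σ, hσ⟩ := chi_surjective p (Units.mk0 2 h2)
  refine ⟨σ, ?_⟩
  rw [hσ]
  intro h
  have h' : (2 : ZMod p) = 1 := by
    have := congrArg (fun u : (ZMod p)ˣ => (u : ZMod p)) h
    simpa using this
  have : (1 : ZMod p) = 0 := by
    have h'' : (2 : ZMod p) - 1 = 0 := sub_eq_zero.mpr h'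
    norm_num at h''
  exact one_ne_zero this

theorem isComplex_Kp (h3 : 3 ≤ p) (w : NumberField.InfinitePlace (Kp p)) : w.IsComplex :=
  (IsCyclotomicExtension.Rat.isTotallyComplex (n := p) (Kp p) (by omega)).isComplex w

end Fermat.Agent.CFT.S14
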