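import Mathlib
import Fermat.Agent.CFT.S14.Inertia_helper5
import Fermat.Agent.CFT.S14.Cyclo_helper5

set_option autoImplicit false
set_option linter.style.haveILetI false
set_option linter.unusedSectionVars false

open IntermediateField ExtCitation
open scoped NumberField Pointwise

namespace Fermat.Agent.CFT.S14

variable {p : ℕ} [Fact p.Prime]
variable {V : Type} [AddCommGroup V] [Module (ZMod p) V] [DistribMulAction GQ V]
  [SMulCommClass GQ (ZMod p) V] {C : Submodule (ZMod p) V}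

theorem actKer_le_fixingSubgroup_Kp (hadm : IsAdmissibleExtension p V C) :
    actKer V ≤ (Kp p).fixingSubgroup := by
  rw [fixingSubgroup_Kp]
  exact actKer_le_ker hadm

/-- Elements of a decomposition group at `p` lying in `ker χ` act trivially on `V`. -/
theorem mem_actKer_of_mem_decompositionSubgroup (hadm : IsAdmissibleExtension p V C)
    {A : ValuationSubring Qbar} (hA : A.LiesOverPrime p) {σ : GQ}
    (hσD : σ ∈ A.decompositionSubgroup ℚ) (hσ : chi p σ = 1) : σ ∈ actKer V := by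
  obtain ⟨C', hC'stab, hcompl⟩ := hadm.locally_split A hA
  intro v
  have hv : v ∈ C ⊔ C' := by rw [hcompl.sup_eq_top]; trivial
  obtain ⟨c, hc, c', hc', rfl⟩ := Submodule.mem_sup.mp hv
  rw [smul_add, hadm.fixed_sub σ c hc]
  congr 1
  have h1 : σ • c' - c' ∈ C := smul_sub_mem_of_chi_eq_one hadm hσ c'
  have h2 : σ • c' - c' ∈ C' := C'.sub_mem (hC'stab σ hσD c' hc') hc'
  have h3 : σ • c' - c' ∈ C ⊓ C' := ⟨h1, h2⟩
  rw [hcompl.inf_eq_bot, Submodule.mem_bot] at h3
  exact sub_eq_zero.mp h3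

theorem inertiaSubgroupIn_le_decompositionSubgroup (A : ValuationSubring Qbar) :
    A.inertiaSubgroupIn ℚ ≤ A.decompositionSubgroup ℚ := by
  rintro σ hσ
  rw [ValuationSubring.inertiaSubgroupIn, Subgroup.mem_map] at hσ
  obtain ⟨τ, -, rfl⟩ := hσ
  exact τ.2

theorem isOpen_actKer (hadm : IsAdmissibleExtensionCts p V C) : IsOpen (actKer V : Set GQ) :=
  hadm.open_kernel

/-- **`L/K` is unramified at every finite prime**, in the form: all inertia groups are trivial. -/
theorem inertia_eq_one (hadm : IsAdmissibleExtensionCts p V C)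
    [Fact (IsOpen (actKer V : Set GQ))]
    (𝔔 : Ideal (𝓞 (LK (actKer_le_fixingSubgroup_Kp hadm.toIsAdmissibleExtension))))
    (h𝔔prime : 𝔔.IsPrime) (h𝔔 : 𝔔 ≠ ⊥)
    (s : (LK (actKer_le_fixingSubgroup_Kp hadm.toIsAdmissibleExtension)) ≃ₐ[Kp p]
      (LK (actKer_le_fixingSubgroup_Kp hadm.toIsAdmissibleExtension)))
    (hs : ∀ x : 𝓞 (LK (actKer_le_fixingSubgroup_Kp hadm.toIsAdmissibleExtension)),
      s • x - x ∈ 𝔔) : s = 1 := by
  haveI := h𝔔prime
  obtain ⟨ℓ, A, σ, hσK, hℓ, hA, hσI, hσs⟩ :=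
    exists_lift_mem_inertiaSubgroupIn
      (actKer_le_fixingSubgroup_Kp hadm.toIsAdmissibleExtension) 𝔔 h𝔔 s hs
  rw [← hσs, resLK_eq_one_iff]
  by_cases hℓp : ℓ = p
  · subst hℓp
    exact mem_actKer_of_mem_decompositionSubgroup hadm.toIsAdmissibleExtension hA
      (inertiaSubgroupIn_le_decompositionSubgroup A hσI)
      ((mem_fixingSubgroup_Kp_iff _ σ).mp hσK)
  · exact hadm.unramified_outside ℓ hℓ hℓp A hA σ hσI

end Fermat.Agent.CFT.S14
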