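import Mathlib
import Fermat.Agent.CFT.S14.Unramified_helper5

set_option autoImplicit false
set_option linter.style.haveILetI false
set_option linter.unusedSectionVars false

open IntermediateField ExtCitation
open scoped NumberField Pointwise

namespace Fermat.Agent.CFT.S14

/-- An element of `G_ℚ` stabilising the prime `Q` of `𝓞 ℚ̄` lies in the decomposition subgroup of
the valuation ring of `Q`. -/
theorem mem_decompositionSubgroup_of_smul_eq {Q : Ideal (𝓞 Qbar)} [Q.IsPrime]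
    {A : ValuationSubring Qbar}
    (hA : ∀ x : Qbar, x ∈ A ↔ ∃ b s : 𝓞 Qbar, s ∉ Q ∧ x * (s : Qbar) = (b : Qbar))
    (σ : GQ) (hσ : σ • Q = Q) : σ ∈ A.decompositionSubgroup ℚ := by
  have key : ∀ τ : GQ, τ • Q = Q → ∀ x : Qbar, x ∈ A → τ x ∈ A := by
    intro τ hτ x hx
    obtain ⟨b, s, hs, hxs⟩ := (hA x).mp hx
    refine (hA _).mpr ⟨τ • b, τ • s, ?_, ?_⟩
    · intro h
      apply hs
      rw [← hτ] at h
      exact (Ideal.smul_mem_pointwise_smul_iff).mp h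
    · rw [coe_smul_ringOfIntegers, coe_smul_ringOfIntegers, ← map_mul, hxs]
  have hinv : σ⁻¹ • Q = Q := by
    conv_lhs => rw [← hσ]
    rw [inv_smul_smul]
  rw [MulAction.mem_stabilizer_iff]
  ext x
  rw [ValuationSubring.mem_pointwise_smul_iff_inv_smul_mem]
  constructor
  · intro h
    have := key σ hσ _ h
    simpa [AlgEquiv.smul_def] using this
  · intro h
    exact key σ⁻¹ hinv x h

section Profinite

variable {K₀ : IntermediateField ℚ Qbar} {N : Subgroup GQ} (hNK : N ≤ K₀.fixingSubgroup)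
variable [hNo : Fact (IsOpen (N : Set GQ))] [N.Normal]

/-- **Lifting the decomposition group**: every element of `Gal(L/K₀)` stabilising a prime `𝔔` of
`L` is the restriction of an element of `G_ℚ` fixing `K₀` and lying in the decomposition
subgroup of a valuation subring of `ℚ̄` above the residue characteristic of `𝔔`. -/
theorem exists_lift_mem_decompositionSubgroup (𝔔 : Ideal (𝓞 (LK hNK))) [𝔔.IsPrime]
    {ℓ : ℕ} (hℓ𝔔 : (ℓ : 𝓞 (LK hNK)) ∈ 𝔔)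
    (s : (LK hNK) ≃ₐ[K₀] (LK hNK)) (hs : ∀ x ∈ 𝔔, s • x ∈ 𝔔) :
    ∃ (A : ValuationSubring Qbar) (σ : GQ) (hσ : σ ∈ K₀.fixingSubgroup),
      A.LiesOverPrime ℓ ∧ σ ∈ A.decompositionSubgroup ℚ ∧ resLK hNK σ hσ = s := by
  classical
  obtain ⟨Q, -, hQprime, hQ𝔔⟩ := Ideal.exists_ideal_over_prime_of_isIntegral 𝔔
    (⊥ : Ideal (𝓞 Qbar)) (by
      rw [← RingHom.ker_eq_comap_bot]
      have : Function.Injective (algebraMap (𝓞 (LK hNK)) (𝓞 Qbar)) :=
        FaithfulSMul.algebraMap_injective _ _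
      rw [(RingHom.injective_iff_ker_eq_bot _).mp this]
      exact bot_le)
  haveI := hQprime
  haveI : Q.LiesOver 𝔔 := ⟨hQ𝔔.symm⟩
  -- `s⁻¹` preserves `𝔔` as well
  have hpow : ∀ n : ℕ, ∀ x ∈ 𝔔, (s ^ n) • x ∈ 𝔔 := by
    intro n
    induction n with
    | zero => intro x hx; simpa using hx
    | succ n ih =>
      intro x hx
      rw [pow_succ, mul_smul]
      exact ih _ (hs x hx)
  have hs𝔔 : ∀ x : 𝓞 (LK hNK), s • x ∈ 𝔔 ↔ x ∈ 𝔔 := by
    intro x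
    refine ⟨fun h => ?_, hs x⟩
    haveI : FiniteDimensional K₀ (LK hNK) := FiniteDimensional.right ℚ K₀ (LK hNK)
    obtain ⟨n, hn, hsn⟩ := (isOfFinOrder_of_finite s).exists_pow_eq_one
    have h1 := hpow (n - 1) _ h
    rw [← mul_smul, ← pow_succ, Nat.sub_add_cancel hn, hsn, one_smul] at h1
    exact h1
  obtain ⟨σ₀, hσ₀K, hσ₀s⟩ := resLK_surjective hNK s
  have hunder : (σ₀ • Q).under (𝓞 (LK hNK)) = Q.under (𝓞 (LK hNK)) := by
    ext x
    rw [Ideal.under_def, Ideal.under_def, Ideal.mem_comap, Ideal.mem_comap,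
      Ideal.mem_pointwise_smul_iff_inv_smul_mem,
      coe_algebraMap_smul_resLK hNK σ₀⁻¹ (inv_mem hσ₀K) x]
    have e : resLK hNK σ₀⁻¹ (inv_mem hσ₀K) = s⁻¹ := by
      rw [eq_inv_iff_mul_eq_one, ← hσ₀s, ← resLK_mul, resLK_eq_one_iff]
      simp
    rw [e]
    show s⁻¹ • x ∈ Q.under (𝓞 (LK hNK)) ↔ x ∈ Q.under (𝓞 (LK hNK))
    rw [← Ideal.over_def Q 𝔔]
    rw [← hs𝔔 (s⁻¹ • x), smul_inv_smul]
  obtain ⟨n, hn⟩ := exists_smul_eq_of_under_eq hNK (σ₀ • Q) Q hunder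
  set σ₁ : GQ := (n : GQ) * σ₀ with hσ₁
  have hσ₁Q : σ₁ • Q = Q := by rw [hσ₁, mul_smul]; exact hn.symm
  have hnK : (n : GQ) ∈ K₀.fixingSubgroup := hNK n.2
  have hσ₁K : σ₁ ∈ K₀.fixingSubgroup := mul_mem hnK hσ₀K
  have hσ₁s : resLK hNK σ₁ hσ₁K = s := by
    rw [resLK_mul hNK _ _ hnK hσ₀K, hσ₀s, (resLK_eq_one_iff hNK _ hnK).mpr n.2, one_mul]
  obtain ⟨A, hA, hA'⟩ := exists_valuationSubring_of_prime_Qbar Q
  refine ⟨A, σ₁, hσ₁K, ?_, mem_decompositionSubgroup_of_smul_eq hA σ₁ hσ₁Q, hσ₁s⟩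
  apply liesOverPrime_of_mem hA'
  have : algebraMap (𝓞 (LK hNK)) (𝓞 Qbar) (ℓ : 𝓞 (LK hNK)) ∈ Q := by
    show (ℓ : 𝓞 (LK hNK)) ∈ Q.under (𝓞 (LK hNK))
    rw [← Ideal.over_def Q 𝔔]
    exact hℓ𝔔
  simpa using this

end Profinite

variable {p : ℕ} [Fact p.Prime]
variable {V : Type} [AddCommGroup V] [Module (ZMod p) V] [DistribMulAction GQ V]
  [SMulCommClass GQ (ZMod p) V] {C : Submodule (ZMod p) V}

/-- **The primes above `p` split completely in `L/K`**: all decomposition groups are trivial. -/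
theorem decomposition_eq_one (hadm : IsAdmissibleExtension p V C)
    [Fact (IsOpen (actKer V : Set GQ))]
    (𝔔 : Ideal (𝓞 (LK (actKer_le_fixingSubgroup_Kp hadm))))
    (h𝔔prime : 𝔔.IsPrime) (hp𝔔 : (p : 𝓞 (LK (actKer_le_fixingSubgroup_Kp hadm))) ∈ 𝔔)
    (s : (LK (actKer_le_fixingSubgroup_Kp hadm)) ≃ₐ[Kp p]
      (LK (actKer_le_fixingSubgroup_Kp hadm)))
    (hs : ∀ x ∈ 𝔔, s • x ∈ 𝔔) : s = 1 := by
  haveI := h𝔔prime
  obtain ⟨A, σ, hσK, hA, hσD, hσs⟩ :=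
    exists_lift_mem_decompositionSubgroup (actKer_le_fixingSubgroup_Kp hadm) 𝔔 hp𝔔 s hs
  rw [← hσs, resLK_eq_one_iff]
  exact mem_actKer_of_mem_decompositionSubgroup hadm hA hσD
    ((mem_fixingSubgroup_Kp_iff _ σ).mp hσK)

end Fermat.Agent.CFT.S14
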