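import Mathlib
import Fermat.Prelude.Def_ExtCitation_AdmissibleExtension_v2
import Fermat.Prelude.Def_ClassGroup_GaloisAction

set_option autoImplicit false

open scoped NumberField nonZeroDivisors

namespace Fermat.Agent.CFT.S14

/-- **(M1')** Artin reciprocity for everywhere unramified abelian extensions of a totally complex
number field: the Frobenius elements define a surjective homomorphism from the class group. -/
def UnramifiedReciprocity : Prop :=
  ∀ (K L : Type) [Field K] [NumberField K] [Field L] [NumberField L] [Algebra K L] [IsGalois K L],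
    (∀ σ τ : L ≃ₐ[K] L, σ * τ = τ * σ) →
    (∀ w : NumberField.InfinitePlace K, w.IsComplex) →
    (∀ (Q : Ideal (𝓞 L)), Q.IsPrime → Q ≠ ⊥ →
      ∀ σ : L ≃ₐ[K] L, (∀ x : 𝓞 L, σ • x - x ∈ Q) → σ = 1) →
    ∃ Art : ClassGroup (𝓞 K) →* (L ≃ₐ[K] L), Function.Surjective Art ∧
      ∀ (P : Ideal (𝓞 K)) (_ : P.IsPrime) (hP0 : P ≠ ⊥) (Q : Ideal (𝓞 L)), Q.IsPrime →
        Q.under (𝓞 K) = P →
        IsArithFrobAt (𝓞 K) (Art (ClassGroup.mk0 ⟨P, mem_nonZeroDivisors_of_ne_zero hP0⟩)) Q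

/-- **(M1'), cyclotomic form**: Artin reciprocity for `L/K` with `K = ℚ(ζ_p)`, `L/ℚ` Galois,
`L/K` cyclic of degree `p`, unramified at every finite prime and with all primes above `p`
split completely. This is all that is needed for S14; it is implied by
`UnramifiedReciprocity` (for `3 ≤ p`). -/
def CycloUnramifiedReciprocity (p : ℕ) [Fact p.Prime] : Prop :=
  ∀ (K L : Type) [Field K] [NumberField K] [IsCyclotomicExtension {p} ℚ K]
    [Field L] [NumberField L] [Algebra K L] [IsGalois K L],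
    IsGalois ℚ L →
    Nat.card (L ≃ₐ[K] L) = p →
    (∀ (Q : Ideal (𝓞 L)), Q.IsPrime → Q ≠ ⊥ →
      ∀ σ : L ≃ₐ[K] L, (∀ x : 𝓞 L, σ • x - x ∈ Q) → σ = 1) →
    (∀ (Q : Ideal (𝓞 L)), Q.IsPrime → (p : 𝓞 L) ∈ Q →
      ∀ σ : L ≃ₐ[K] L, (∀ x ∈ Q, σ • x ∈ Q) → σ = 1) →
    ∃ Art : ClassGroup (𝓞 K) →* (L ≃ₐ[K] L), Function.Surjective Art ∧
      ∀ (P : Ideal (𝓞 K)) (_ : P.IsPrime) (hP0 : P ≠ ⊥) (Q : Ideal (𝓞 L)), Q.IsPrime →
        Q.under (𝓞 K) = P →
        IsArithFrobAt (𝓞 K) (Art (ClassGroup.mk0 ⟨P, mem_nonZeroDivisors_of_ne_zero hP0⟩)) Q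

/-- **(C5)** (consequence of Stickelberger): there is no nonzero `ω⁻¹`-equivariant homomorphism
from the class group of `ℚ(ζ_p)` to an `𝔽_p`-vector space. -/
def StickelbergerVanishing (p : ℕ) [Fact p.Prime] : Prop :=
  haveI : NeZero p := ⟨(Fact.out : p.Prime).ne_zero⟩
  ∀ (K : Type) [Field K] [NumberField K] [IsCyclotomicExtension {p} ℚ K]
    (M : Type) [AddCommGroup M] [Module (ZMod p) M]
    (f : ClassGroup (𝓞 K) →* Multiplicative M),
    (∀ (d : (ZMod p)ˣ) (C : ClassGroup (𝓞 K)),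
        (f (ClassGroup.mulEquiv (JacobiSumStickelberger.clRingAction p K d) C)).toAdd =
          ((d⁻¹ : (ZMod p)ˣ) : ZMod p) • (f C).toAdd) →
    ∀ C, f C = 1

end Fermat.Agent.CFT.S14
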