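import Mathlib
import Fermat.Agent.CFT.S14.Unramified_helper5

set_option autoImplicit false
set_option linter.style.haveILetI false
set_option linter.unusedSectionVars false

open IntermediateField ExtCitation
open scoped NumberField Pointwise

namespace Fermat.Agent.CFT.S14

variable {p : ℕ} [Fact p.Prime]
variable {V : Type} [AddCommGroup V] [Module (ZMod p) V] [DistribMulAction GQ V]
  [SMulCommClass GQ (ZMod p) V] {C : Submodule (ZMod p) V}

section Psi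

variable (hadm : IsAdmissibleExtension p V C) [Fact (IsOpen (actKer V : Set GQ))]

/-- The field cut out by `V`, as an extension of `ℚ(ζ_p)`. -/
noncomputable abbrev LV : IntermediateField (Kp p) Qbar := LK (actKer_le_fixingSubgroup_Kp hadm)

/-- The map `Gal(L/K) → V`, `s ↦ σ̃ v₀ - v₀` for a lift `σ̃` of `s`. -/
noncomputable def psi (v₀ : V) (s : (LV hadm) ≃ₐ[Kp p] (LV hadm)) : V :=
  (Classical.choose (resLK_surjective (actKer_le_fixingSubgroup_Kp hadm) s)) • v₀ - v₀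

theorem smul_eq_of_resLK_eq {σ σ' : GQ} (hσK : σ ∈ (Kp p).fixingSubgroup)
    (hσ'K : σ' ∈ (Kp p).fixingSubgroup)
    (h : resLK (actKer_le_fixingSubgroup_Kp hadm) σ hσK =
      resLK (actKer_le_fixingSubgroup_Kp hadm) σ' hσ'K) (v : V) : σ • v = σ' • v := by
  have h1 : σ'⁻¹ * σ ∈ actKer V := by
    rw [← resLK_eq_one_iff (actKer_le_fixingSubgroup_Kp hadm) _ (mul_mem (inv_mem hσ'K) hσK),
      resLK_mul _ _ _ (inv_mem hσ'K) hσK, h]
    rw [← resLK_mul, resLK_eq_one_iff]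
    simp
  have h2 := h1 v
  rw [mul_smul, inv_smul_eq_iff] at h2
  exact h2

theorem psi_eq (v₀ : V) {s : (LV hadm) ≃ₐ[Kp p] (LV hadm)} {σ : GQ}
    (hσK : σ ∈ (Kp p).fixingSubgroup)
    (h : resLK (actKer_le_fixingSubgroup_Kp hadm) σ hσK = s) : psi hadm v₀ s = σ • v₀ - v₀ := by
  unfold psi
  obtain ⟨hσ'K, hσ's⟩ :=
    Classical.choose_spec (resLK_surjective (actKer_le_fixingSubgroup_Kp hadm) s)
  rw [smul_eq_of_resLK_eq hadm hσ'K hσK (hσ's.trans h.symm) v₀]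

theorem psi_mem (v₀ : V) (s : (LV hadm) ≃ₐ[Kp p] (LV hadm)) : psi hadm v₀ s ∈ C := by
  obtain ⟨σ, hσK, hσs⟩ := resLK_surjective (actKer_le_fixingSubgroup_Kp hadm) s
  rw [psi_eq hadm v₀ hσK hσs]
  exact smul_sub_mem_of_chi_eq_one hadm ((mem_fixingSubgroup_Kp_iff _ σ).mp hσK) v₀

theorem psi_mul (v₀ : V) (s t : (LV hadm) ≃ₐ[Kp p] (LV hadm)) :
    psi hadm v₀ (s * t) = psi hadm v₀ s + psi hadm v₀ t := by
  obtain ⟨σ, hσK, hσs⟩ := resLK_surjective (actKer_le_fixingSubgroup_Kp hadm) s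
  obtain ⟨τ, hτK, hτt⟩ := resLK_surjective (actKer_le_fixingSubgroup_Kp hadm) t
  have hst : resLK (actKer_le_fixingSubgroup_Kp hadm) (σ * τ) (mul_mem hσK hτK) = s * t := by
    rw [resLK_mul _ _ _ hσK hτK, hσs, hτt]
  rw [psi_eq hadm v₀ hσK hσs, psi_eq hadm v₀ hτK hτt, psi_eq hadm v₀ (mul_mem hσK hτK) hst]
  exact mul_smul_sub hadm ((mem_fixingSubgroup_Kp_iff _ τ).mp hτK) v₀

theorem eq_one_of_psi_eq_zero {v₀ : V} (hv₀ : v₀ ∉ C) {s : (LV hadm) ≃ₐ[Kp p] (LV hadm)}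
    (h : psi hadm v₀ s = 0) : s = 1 := by
  obtain ⟨σ, hσK, hσs⟩ := resLK_surjective (actKer_le_fixingSubgroup_Kp hadm) s
  rw [psi_eq hadm v₀ hσK hσs, sub_eq_zero] at h
  rw [← hσs, resLK_eq_one_iff]
  exact mem_actKer_of_smul_eq hadm hv₀ h

/-- `ψ` as a homomorphism `Gal(L/K) →* Multiplicative C`. -/
noncomputable def psiHom (v₀ : V) : ((LV hadm) ≃ₐ[Kp p] (LV hadm)) →* Multiplicative C where
  toFun s := Multiplicative.ofAdd ⟨psi hadm v₀ s, psi_mem hadm v₀ s⟩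
  map_one' := by
    have h := psi_mul hadm v₀ 1 1
    rw [mul_one] at h
    have h0 : psi hadm v₀ 1 = 0 := by
      have := congrArg (fun x => x - psi hadm v₀ 1) h
      simpa using this.symm
    apply congrArg Multiplicative.ofAdd
    exact Subtype.ext h0
  map_mul' s t := by
    rw [← ofAdd_add]
    apply congrArg Multiplicative.ofAdd
    exact Subtype.ext (psi_mul hadm v₀ s t)

theorem psiHom_apply (v₀ : V) (s : (LV hadm) ≃ₐ[Kp p] (LV hadm)) :
    (((psiHom hadm v₀ s).toAdd : C) : V) = psi hadm v₀ s := rfl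

theorem psiHom_injective {v₀ : V} (hv₀ : v₀ ∉ C) : Function.Injective (psiHom hadm v₀) := by
  rw [injective_iff_map_eq_one]
  intro s hs
  apply eq_one_of_psi_eq_zero hadm hv₀
  have := congrArg (fun x : Multiplicative C => ((x.toAdd : C) : V)) hs
  simpa [psiHom_apply] using this

theorem gal_comm {v₀ : V} (hv₀ : v₀ ∉ C) (s t : (LV hadm) ≃ₐ[Kp p] (LV hadm)) :
    s * t = t * s := by
  apply psiHom_injective hadm hv₀
  rw [map_mul, map_mul, mul_comm]

/-- Conjugation by `δ` multiplies `ψ` by `χ(δ)⁻¹`. -/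
theorem psi_conj (v₀ : V) (δ : GQ) {σ : GQ} (hσK : σ ∈ (Kp p).fixingSubgroup) :
    ∃ h : δ * σ * δ⁻¹ ∈ (Kp p).fixingSubgroup,
      psi hadm v₀ (resLK (actKer_le_fixingSubgroup_Kp hadm) (δ * σ * δ⁻¹) h) =
        (((chi p δ)⁻¹ : (ZMod p)ˣ) : ZMod p) •
          psi hadm v₀ (resLK (actKer_le_fixingSubgroup_Kp hadm) σ hσK) := by
  have hσ : chi p σ = 1 := (mem_fixingSubgroup_Kp_iff _ σ).mp hσK
  have h : δ * σ * δ⁻¹ ∈ (Kp p).fixingSubgroup := by
    rw [mem_fixingSubgroup_Kp_iff, map_mul, map_mul, hσ, mul_one, map_inv, mul_inv_cancel]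
  refine ⟨h, ?_⟩
  rw [psi_eq hadm v₀ h rfl, psi_eq hadm v₀ hσK rfl]
  exact conj_smul_sub hadm δ hσ v₀

end Psi

end Fermat.Agent.CFT.S14
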