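import Mathlib
import Fermat.Agent.CFT.S14.Psi_helper5

set_option autoImplicit false
set_option linter.style.haveILetI false
set_option linter.unusedSectionVars false

open IntermediateField ExtCitation
open scoped NumberField Pointwise nonZeroDivisors

namespace Fermat.Agent.CFT.S14

variable {p : ℕ} [Fact p.Prime]
variable {V : Type} [AddCommGroup V] [Module (ZMod p) V] [DistribMulAction GQ V]
  [SMulCommClass GQ (ZMod p) V] {C : Submodule (ZMod p) V}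

section Frob

variable (hadm : IsAdmissibleExtension p V C) [Fact (IsOpen (actKer V : Set GQ))]

theorem coe_resLQ_smul (δ : GQ) (x : 𝓞 (LV hadm)) :
    (((resLQ (actKer_le_fixingSubgroup_Kp hadm) δ • x : 𝓞 (LV hadm)) : LV hadm) : Qbar) =
      δ ((x : LV hadm) : Qbar) :=
  coe_resLQ _ δ (x : LV hadm)

theorem coe_resLK_smul (σ : GQ) (hσ : σ ∈ (Kp p).fixingSubgroup) (x : 𝓞 (LV hadm)) :
    (((resLK (actKer_le_fixingSubgroup_Kp hadm) σ hσ • x : 𝓞 (LV hadm)) : LV hadm) : Qbar) =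
      σ ((x : LV hadm) : Qbar) :=
  coe_resLK _ σ hσ (x : LV hadm)

theorem resLK_conj_smul (δ : GQ) {σ : GQ} (hσK : σ ∈ (Kp p).fixingSubgroup)
    (h : δ * σ * δ⁻¹ ∈ (Kp p).fixingSubgroup) (y : 𝓞 (LV hadm)) :
    resLK (actKer_le_fixingSubgroup_Kp hadm) (δ * σ * δ⁻¹) h •
        (resLQ (actKer_le_fixingSubgroup_Kp hadm) δ • y) =
      resLQ (actKer_le_fixingSubgroup_Kp hadm) δ •
        (resLK (actKer_le_fixingSubgroup_Kp hadm) σ hσK • y) := by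
  apply NumberField.RingOfIntegers.ext
  apply Subtype.ext
  rw [coe_resLK_smul, coe_resLQ_smul, coe_resLQ_smul, coe_resLK_smul]
  simp

theorem coe_algebraMap_Kp_LV (x : 𝓞 (Kp p)) :
    (((algebraMap (𝓞 (Kp p)) (𝓞 (LV hadm)) x : 𝓞 (LV hadm)) : LV hadm) : Qbar) =
      ((x : Kp p) : Qbar) := rfl

theorem coe_galRestrictionDatum_resKp (δ : GQ) (x : 𝓞 (Kp p)) :
    (((galRestrictionDatum ℤ ℚ (Kp p) (𝓞 (Kp p)) (resKp p δ) x : 𝓞 (Kp p)) : Kp p) : Qbar) =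
      δ ((x : Kp p) : Qbar) := by
  rw [galRestrictionDatum_apply]
  have := algebraMap_galRestrict_apply ℤ (resKp p δ) x (B := 𝓞 (Kp p))
  have h2 : ((galRestrict ℤ ℚ (Kp p) (𝓞 (Kp p)) (resKp p δ) x : 𝓞 (Kp p)) : Kp p) =
      resKp p δ (x : Kp p) := this
  rw [h2, coe_resKp]

/-- `δ` maps the prime below `Q` to the prime below `δ Q`. -/
theorem under_resLQ_smul (δ : GQ) (Q : Ideal (𝓞 (LV hadm))) :
    (resLQ (actKer_le_fixingSubgroup_Kp hadm) δ • Q).under (𝓞 (Kp p)) =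
      (Q.under (𝓞 (Kp p))).map
        ((galRestrictionDatum ℤ ℚ (Kp p) (𝓞 (Kp p)) (resKp p δ) : 𝓞 (Kp p) ≃+* 𝓞 (Kp p)) :
          𝓞 (Kp p) →+* 𝓞 (Kp p)) := by
  set g := galRestrictionDatum ℤ ℚ (Kp p) (𝓞 (Kp p)) (resKp p δ) with hg
  ext x
  rw [Ideal.map_comap_of_equiv g, Ideal.under_def, Ideal.under_def, Ideal.mem_comap,
    Ideal.mem_comap, Ideal.mem_comap, Ideal.mem_pointwise_smul_iff_inv_smul_mem]
  have key : algebraMap (𝓞 (Kp p)) (𝓞 (LV hadm)) x =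
      resLQ (actKer_le_fixingSubgroup_Kp hadm) δ •
        algebraMap (𝓞 (Kp p)) (𝓞 (LV hadm)) (g.symm x) := by
    apply NumberField.RingOfIntegers.ext
    apply Subtype.ext
    rw [coe_resLQ_smul, coe_algebraMap_Kp_LV, coe_algebraMap_Kp_LV,
      ← coe_galRestrictionDatum_resKp, ← hg, RingEquiv.apply_symm_apply]
  rw [key, inv_smul_smul]

/-- Conjugating a Frobenius element at `Q` by `δ ∈ G_ℚ` gives a Frobenius element at `δ Q`. -/
theorem isArithFrobAt_conj (δ : GQ) {σ : GQ} (hσK : σ ∈ (Kp p).fixingSubgroup)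
    (h : δ * σ * δ⁻¹ ∈ (Kp p).fixingSubgroup) (Q : Ideal (𝓞 (LV hadm)))
    (H : IsArithFrobAt (𝓞 (Kp p)) (resLK (actKer_le_fixingSubgroup_Kp hadm) σ hσK) Q) :
    IsArithFrobAt (𝓞 (Kp p)) (resLK (actKer_le_fixingSubgroup_Kp hadm) (δ * σ * δ⁻¹) h)
      (resLQ (actKer_le_fixingSubgroup_Kp hadm) δ • Q) := by
  intro x
  obtain ⟨y, rfl⟩ : ∃ y, x = resLQ (actKer_le_fixingSubgroup_Kp hadm) δ • y :=
    ⟨(resLQ (actKer_le_fixingSubgroup_Kp hadm) δ)⁻¹ • x, by simp⟩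
  have hcard : Nat.card (𝓞 (Kp p) ⧸
        (resLQ (actKer_le_fixingSubgroup_Kp hadm) δ • Q).under (𝓞 (Kp p))) =
      Nat.card (𝓞 (Kp p) ⧸ Q.under (𝓞 (Kp p))) := by
    rw [under_resLQ_smul]
    exact Nat.card_congr (Ideal.quotientEquiv _ _
      (galRestrictionDatum ℤ ℚ (Kp p) (𝓞 (Kp p)) (resKp p δ)) rfl).symm.toEquiv
  rw [hcard, MulSemiringAction.toAlgHom_apply, resLK_conj_smul hadm δ hσK h,
    Ideal.mem_pointwise_smul_iff_inv_smul_mem, smul_sub, smul_pow', inv_smul_smul, inv_smul_smul]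
  have := H y
  rwa [MulSemiringAction.toAlgHom_apply] at this

section Art

variable (Art : ClassGroup (𝓞 (Kp p)) →* ((LV hadm) ≃ₐ[Kp p] (LV hadm)))
  (hArt : ∀ (P : Ideal (𝓞 (Kp p))) (_ : P.IsPrime) (hP0 : P ≠ ⊥) (Q : Ideal (𝓞 (LV hadm))),
      Q.IsPrime → Q.under (𝓞 (Kp p)) = P →
      IsArithFrobAt (𝓞 (Kp p)) (Art (ClassGroup.mk0 ⟨P, mem_nonZeroDivisors_of_ne_zero hP0⟩)) Q)
  (hunr : ∀ (Q : Ideal (𝓞 (LV hadm))), Q.IsPrime → Q ≠ ⊥ →
      ∀ s : (LV hadm) ≃ₐ[Kp p] (LV hadm), (∀ x : 𝓞 (LV hadm), s • x - x ∈ Q) → s = 1)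

include hArt hunr in
/-- The Artin map intertwines the action of `Gal(K/ℚ)` on ideal classes with conjugation. -/
theorem art_mapNonZero (δ : GQ) (P : (Ideal (𝓞 (Kp p)))⁰) (hP : (P : Ideal (𝓞 (Kp p))).IsPrime)
    {σ : GQ} (hσK : σ ∈ (Kp p).fixingSubgroup)
    (hσ : resLK (actKer_le_fixingSubgroup_Kp hadm) σ hσK = Art (ClassGroup.mk0 P))
    (h : δ * σ * δ⁻¹ ∈ (Kp p).fixingSubgroup) :
    Art (ClassGroup.mk0 (Ideal.mapNonZero
      (galRestrictionDatum ℤ ℚ (Kp p) (𝓞 (Kp p)) (resKp p δ)) P)) =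
      resLK (actKer_le_fixingSubgroup_Kp hadm) (δ * σ * δ⁻¹) h := by
  have hP0 : (P : Ideal (𝓞 (Kp p))) ≠ ⊥ := by
    have := nonZeroDivisors.ne_zero P.2
    simpa using this
  -- a prime of `L` above `P`
  obtain ⟨Q, hQprime, hQP⟩ : ∃ Q : Ideal (𝓞 (LV hadm)), Q.IsPrime ∧
      Q.under (𝓞 (Kp p)) = (P : Ideal (𝓞 (Kp p))) := by
    obtain ⟨Q, -, hQ1, hQ2⟩ := Ideal.exists_ideal_over_prime_of_isIntegral
      (P : Ideal (𝓞 (Kp p))) (⊥ : Ideal (𝓞 (LV hadm))) (by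
        rw [← RingHom.ker_eq_comap_bot]
        have : Function.Injective (algebraMap (𝓞 (Kp p)) (𝓞 (LV hadm))) :=
          FaithfulSMul.algebraMap_injective _ _
        rw [(RingHom.injective_iff_ker_eq_bot _).mp this]
        exact bot_le)
    exact ⟨Q, hQ1, hQ2⟩
  set g := galRestrictionDatum ℤ ℚ (Kp p) (𝓞 (Kp p)) (resKp p δ) with hg
  set Q' : Ideal (𝓞 (LV hadm)) := resLQ (actKer_le_fixingSubgroup_Kp hadm) δ • Q with hQ'
  have hQ'prime : Q'.IsPrime := by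
    rw [hQ', Ideal.pointwise_smul_def]
    exact Ideal.map_isPrime_of_equiv
      (MulSemiringAction.toRingEquiv _ (𝓞 (LV hadm))
        (resLQ (actKer_le_fixingSubgroup_Kp hadm) δ))
  have hQ'P : Q'.under (𝓞 (Kp p)) = (Ideal.mapNonZero g P : Ideal (𝓞 (Kp p))) := by
    rw [hQ', under_resLQ_smul, hQP, Ideal.coe_mapNonZero]
  have hP'0 : (Ideal.mapNonZero g P : Ideal (𝓞 (Kp p))) ≠ ⊥ := by
    have := nonZeroDivisors.ne_zero (Ideal.mapNonZero g P).2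
    simpa using this
  have hP'prime : (Ideal.mapNonZero g P : Ideal (𝓞 (Kp p))).IsPrime := by
    rw [← hQ'P]
    exact Ideal.IsPrime.under _ _
  have hQ'0 : Q' ≠ ⊥ := by
    intro h0
    apply hP'0
    rw [← hQ'P, h0]
    exact Ideal.under_bot _ _
  have H1 := hArt _ hP'prime hP'0 Q' hQ'prime hQ'P
  have H0 : IsArithFrobAt (𝓞 (Kp p)) (resLK (actKer_le_fixingSubgroup_Kp hadm) σ hσK) Q := by
    rw [hσ]
    exact hArt _ hP hP0 Q hQprime hQP
  have H2 := isArithFrobAt_conj hadm δ hσK h Q H0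
  have H3 := H1.mul_inv_mem_inertia H2
  have H4 := hunr Q' hQ'prime hQ'0 _ (fun x => H3 x)
  exact mul_inv_eq_one.mp H4

end Art

end Frob

end Fermat.Agent.CFT.S14
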