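import Mathlib
import Fermat.Agent.CFT.S14.Frob_helper5
import Fermat.Agent.CFT.Stickelberger.Main_helper1

set_option autoImplicit false
set_option linter.style.haveILetI false
set_option linter.unusedSectionVars false

open IntermediateField ExtCitation
open scoped NumberField Pointwise nonZeroDivisors

namespace Fermat.Agent.CFT.S14

variable {p : ℕ} [Fact p.Prime]
variable {V : Type} [AddCommGroup V] [Module (ZMod p) V] [DistribMulAction GQ V]
  [SMulCommClass GQ (ZMod p) V] {C : Submodule (ZMod p) V}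

section Vanish

variable (hadm : IsAdmissibleExtension p V C) [Fact (IsOpen (actKer V : Set GQ))]

variable (Art : ClassGroup (𝓞 (Kp p)) →* ((LV hadm) ≃ₐ[Kp p] (LV hadm)))
  (hArt : ∀ (P : Ideal (𝓞 (Kp p))) (_ : P.IsPrime) (hP0 : P ≠ ⊥) (Q : Ideal (𝓞 (LV hadm))),
      Q.IsPrime → Q.under (𝓞 (Kp p)) = P →
      IsArithFrobAt (𝓞 (Kp p)) (Art (ClassGroup.mk0 ⟨P, mem_nonZeroDivisors_of_ne_zero hP0⟩)) Q)
  (hunr : ∀ (Q : Ideal (𝓞 (LV hadm))), Q.IsPrime → Q ≠ ⊥ →
      ∀ s : (LV hadm) ≃ₐ[Kp p] (LV hadm), (∀ x : 𝓞 (LV hadm), s • x - x ∈ Q) → s = 1)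

include hArt hunr in
/-- **Stickelberger kills `ψ ∘ Art`.** -/
theorem psiHom_art_eq_one (h3 : 3 ≤ p) (v₀ : V) (c : ClassGroup (𝓞 (Kp p))) :
    psiHom hadm v₀ (Art c) = 1 := by
  have hp2 : p ≠ 2 := by omega
  let f : Additive (ClassGroup (𝓞 (Kp p))) →+ C :=
    MonoidHom.toAdditiveLeft ((psiHom hadm v₀).comp Art)
  have hf : ∀ c, f (Additive.ofMul c) = (psiHom hadm v₀ (Art c)).toAdd := fun c => rfl
  have h0 : f = 0 := by
    refine Fermat.Agent.CFT.Stick.eq_zero_of_equivariant_gal (p := p) (K := Kp p) f ?_ hp2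
    intro τ P hP
    obtain ⟨δ, rfl⟩ := resKp_surjective p τ
    obtain ⟨σ, hσK, hσ⟩ := resLK_surjective (actKer_le_fixingSubgroup_Kp hadm)
      (Art (ClassGroup.mk0 P))
    obtain ⟨h, hconj⟩ := psi_conj hadm v₀ δ hσK
    have hA := art_mapNonZero hadm Art hArt hunr δ P hP hσK hσ h
    rw [hf, hf]
    erw [hA]
    rw [cycloGalEquiv_resKp, ← hσ]
    apply Subtype.ext
    rw [Submodule.coe_smul, psiHom_apply, psiHom_apply]
    exact hconj
  have := DFunLike.congr_fun h0 (Additive.ofMul c)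
  rw [hf] at this
  exact Multiplicative.toAdd.injective this

end Vanish

end Fermat.Agent.CFT.S14
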