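import Mathlib
import Fermat.Agent.CFT.S14.Defs_helper5
import Fermat.Agent.CFT.S14.Vanish_helper5
import Fermat.Agent.CFT.S14.Decomp_helper5

set_option autoImplicit false
set_option linter.style.haveILetI false
set_option linter.unusedSectionVars false

open IntermediateField ExtCitation
open scoped NumberField Pointwise nonZeroDivisors

namespace Fermat.Agent.CFT.S14

variable {p : ℕ} [Fact p.Prime]
variable {V : Type} [AddCommGroup V] [Module (ZMod p) V] [DistribMulAction GQ V]
  [SMulCommClass GQ (ZMod p) V] {C : Submodule (ZMod p) V}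

/-- The core of S14: if (in the non-split case) the extension `L/K` cut out by `V` over
`K = ℚ(ζ_p)` has a surjective Artin map from the class group of `K`, then `V` splits. -/
theorem splitsGlobally_of_exists_art (h3 : 3 ≤ p) (hadm : IsAdmissibleExtensionCts p V C)
    [Fact (IsOpen (actKer V : Set GQ))]
    (hart : ¬ (chi p).ker ≤ actKer V →
      ∃ Art : ClassGroup (𝓞 (Kp p)) →*
          ((LV hadm.toIsAdmissibleExtension) ≃ₐ[Kp p] (LV hadm.toIsAdmissibleExtension)),
        Function.Surjective Art ∧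
        ∀ (P : Ideal (𝓞 (Kp p))) (_ : P.IsPrime) (hP0 : P ≠ ⊥)
          (Q : Ideal (𝓞 (LV hadm.toIsAdmissibleExtension))), Q.IsPrime →
          Q.under (𝓞 (Kp p)) = P →
          IsArithFrobAt (𝓞 (Kp p))
            (Art (ClassGroup.mk0 ⟨P, mem_nonZeroDivisors_of_ne_zero hP0⟩)) Q) :
    SplitsGlobally C := by
  have hadm' := hadm.toIsAdmissibleExtension
  by_cases hker : (chi p).ker ≤ actKer V
  · exact splitsGlobally_of_ker_le hadm' hker (exists_chi_ne_one p h3)
  · exfalso
    obtain ⟨Art, hsurj, hArt⟩ := hart hker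
    obtain ⟨v₀, hv₀⟩ := exists_not_mem hadm'
    obtain ⟨σ, hσχ, hσV⟩ := Set.not_subset.mp hker
    have hσK : σ ∈ (Kp p).fixingSubgroup := (mem_fixingSubgroup_Kp_iff p σ).mpr hσχ
    obtain ⟨c, hc⟩ := hsurj (resLK (actKer_le_fixingSubgroup_Kp hadm') σ hσK)
    have h1 := psiHom_art_eq_one hadm' Art hArt
      (fun Q hQ hQ0 s hs => inertia_eq_one hadm Q hQ hQ0 s hs) h3 v₀ c
    rw [hc, ← map_one (psiHom hadm' v₀)] at h1
    have h2 := psiHom_injective hadm' hv₀ h1
    exact hσV ((resLK_eq_one_iff _ σ hσK).mp h2)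

/-- **S14 modulo (M1')** (general abelian unramified form). -/
theorem extVanishingCts_of_unramifiedReciprocity (h3 : 3 ≤ p) (hM1 : UnramifiedReciprocity) :
    ExtVanishingCts p := by
  intro V _ _ _ _ C hadm
  haveI : Fact (IsOpen (actKer V : Set GQ)) := ⟨isOpen_actKer hadm⟩
  have hadm' := hadm.toIsAdmissibleExtension
  obtain ⟨v₀, hv₀⟩ := exists_not_mem hadm'
  refine splitsGlobally_of_exists_art h3 hadm fun _ => ?_
  exact hM1 (Kp p) (LV hadm') (gal_comm hadm' hv₀) (isComplex_Kp p h3)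
    (fun Q hQ hQ0 s hs => inertia_eq_one hadm Q hQ hQ0 s hs)

/-- In the non-split case `Gal(L/K)` has order `p`. -/
theorem card_gal_eq (hadm : IsAdmissibleExtension p V C) [Fact (IsOpen (actKer V : Set GQ))]
    (hker : ¬ (chi p).ker ≤ actKer V) :
    Nat.card ((LV hadm) ≃ₐ[Kp p] (LV hadm)) = p := by
  obtain ⟨v₀, hv₀⟩ := exists_not_mem hadm
  obtain ⟨σ, hσχ, hσV⟩ := Set.not_subset.mp hker
  have hσK : σ ∈ (Kp p).fixingSubgroup := (mem_fixingSubgroup_Kp_iff p σ).mpr hσχ
  haveI : Finite C := Nat.finite_of_card_ne_zero (by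
    rw [hadm.card_sub]; exact (Fact.out : p.Prime).ne_zero)
  haveI : Finite (Multiplicative C) := inferInstanceAs (Finite C)
  have hdvd : Nat.card ((LV hadm) ≃ₐ[Kp p] (LV hadm)) ∣ p := by
    have := Subgroup.card_dvd_of_injective (psiHom hadm v₀) (psiHom_injective hadm hv₀)
    rwa [Nat.card_congr (Multiplicative.toAdd (α := C)), hadm.card_sub] at this
  rcases (Nat.dvd_prime (Fact.out : p.Prime)).mp hdvd with h1 | h1
  · exfalso
    haveI : FiniteDimensional (Kp p) (LV hadm) := FiniteDimensional.right ℚ (Kp p) (LV hadm)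
    haveI : Subsingleton ((LV hadm) ≃ₐ[Kp p] (LV hadm)) :=
      (Nat.card_eq_one_iff_unique.mp h1).1
    have h2 : resLK (actKer_le_fixingSubgroup_Kp hadm) σ hσK = 1 := Subsingleton.elim _ _
    exact hσV ((resLK_eq_one_iff _ σ hσK).mp h2)
  · exact h1

/-- **S14 modulo (M1')** (cyclotomic form: `K = ℚ(ζ_p)`, `L/K` cyclic of degree `p`, unramified,
split above `p`, `L/ℚ` Galois). -/
theorem extVanishingCts_of_cycloUnramifiedReciprocity (h3 : 3 ≤ p)
    (hM1 : CycloUnramifiedReciprocity p) : ExtVanishingCts p := by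
  intro V _ _ _ _ C hadm
  haveI : Fact (IsOpen (actKer V : Set GQ)) := ⟨isOpen_actKer hadm⟩
  have hadm' := hadm.toIsAdmissibleExtension
  refine splitsGlobally_of_exists_art h3 hadm fun hker => ?_
  refine hM1 (Kp p) (LV hadm') ?_ (card_gal_eq hadm' hker)
    (fun Q hQ hQ0 s hs => inertia_eq_one hadm Q hQ hQ0 s hs)
    (fun Q hQ hpQ s hs => decomposition_eq_one hadm' Q hQ hpQ s hs)
  exact ⟨⟩

/-- The general form of (M1') implies the cyclotomic form. -/
theorem cycloUnramifiedReciprocity_of_unramifiedReciprocity (h3 : 3 ≤ p)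
    (hM1 : UnramifiedReciprocity) : CycloUnramifiedReciprocity p := by
  intro K L _ _ _ _ _ _ _ _ hcard hunr _
  haveI : Fact (Nat.card (L ≃ₐ[K] L) = p) := ⟨hcard⟩
  haveI : IsCyclic (L ≃ₐ[K] L) := isCyclic_of_prime_card hcard
  refine hM1 K L (fun σ τ => ?_) (fun w => ?_) hunr
  · exact isMulCommutative_iff.mp IsCyclic.commutative σ τ
  · exact (IsCyclotomicExtension.Rat.isTotallyComplex (n := p) K (by omega)).isComplex w

end Fermat.Agent.CFT.S14
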